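/-
S25, block CECH (squad S25/S10), leaf K5 (helper670): base change for the operator-style
Čech core.  Statements K5a–K5d exactly as in `H10/CechSkel.lean`:
`isFGProj_baseChange`, `r0_baseChange_injective`, `baseChange_d`, `H0_baseChange_bijective`.
By-products: `flat_N01` (`N01` is `A`-flat), `exists_pow_eq_r0` (common denominators),
`polyVecEquiv` (`A' ⊗[A] A[X]^n ≃ A'[X]^n`, compatible with multiplication by `X`),
`k5_projective_of_isFGProj`, `k5_injective_of_isFGProj`.
-/
import Fermat.Agent.S25.H10.CechDefs

set_option autoImplicit false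

namespace Fermat.Agent.S25.H670

open Polynomial TensorProduct Fermat.Agent.S25.H10

universe u v w

variable {A : Type u} [CommRing A]

section K0
variable {N : Type v} [AddCommGroup N] [Module A N] {E : Module.End A N}

/-- A retract of `A[X]^n` is projective over `A`. -/
theorem k5_projective_of_isFGProj (h : IsFGProj E) : Module.Projective A N := by
  obtain ⟨n, ι, π, hπι, -, -⟩ := h
  exact Module.Projective.of_split ι π hπι

/-- `E` is injective on a retract of `A[X]^n`. -/
theorem k5_injective_of_isFGProj (h : IsFGProj E) : Function.Injective E := by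
  obtain ⟨n, ι, π, hπι, hι, -⟩ := h
  rw [injective_iff_map_eq_zero]
  intro v hv
  have h1 : (X : A[X]) • ι v = 0 := by rw [← hι, hv, map_zero]
  have h2 : ι v = 0 := by
    funext i
    have := congrFun h1 i
    simp only [Pi.smul_apply, smul_eq_mul, Pi.zero_apply] at this
    exact (mem_nonZeroDivisors_iff.mp (X_mem_nonzeroDivisors (R := A))).1 _ this
  have h3 := congrArg π h2
  rw [map_zero] at h3
  rw [← LinearMap.id_apply (R := A) v, ← hπι]
  exact h3

end K0

section K5a
variable (A' : Type w) [CommRing A'] [Algebra A A'] (n : ℕ)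

/-- `A' ⊗[A] A[X]^n ≃ A'[X]^n`. -/
noncomputable def polyVecEquiv : A' ⊗[A] (Fin n → A[X]) ≃ₗ[A'] (Fin n → A'[X]) :=
  (TensorProduct.piRight A A' A' (fun _ : Fin n => A[X])) ≪≫ₗ
    LinearEquiv.piCongrRight (fun _ => (polyEquivTensor' A A').symm.toLinearEquiv)

theorem polyVecEquiv_tmul (a : A') (w : Fin n → A[X]) (i : Fin n) :
    polyVecEquiv A' n (a ⊗ₜ w) i = a • (w i).map (algebraMap A A') := by
  simp only [polyVecEquiv, LinearEquiv.trans_apply, LinearEquiv.piCongrRight_apply,
    TensorProduct.piRight_apply, TensorProduct.piRightHom_tmul]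
  exact polyEquivTensor_symm_apply_tmul_eq_smul A A' a (w i)

variable (A) in
/-- Multiplication by `X` on `A[X]^n`, as an `A`-linear map. -/
noncomputable def mulXVec : (Fin n → A[X]) →ₗ[A] (Fin n → A[X]) where
  toFun w := (X : A[X]) • w
  map_add' := smul_add _
  map_smul' c w := by
    rw [RingHom.id_apply, smul_comm]

@[simp] theorem mulXVec_apply (w : Fin n → A[X]) : mulXVec A n w = (X : A[X]) • w := rfl

theorem polyVecEquiv_baseChange_mulXVec (z : A' ⊗[A] (Fin n → A[X])) :
    polyVecEquiv A' n ((mulXVec A n).baseChange A' z) = (X : A'[X]) • polyVecEquiv A' n z := by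
  induction z with
  | zero => simp
  | add x y hx hy => simp only [map_add, hx, hy, smul_add]
  | tmul a w =>
    funext i
    rw [LinearMap.baseChange_tmul, polyVecEquiv_tmul, Pi.smul_apply, polyVecEquiv_tmul]
    simp only [mulXVec_apply, Pi.smul_apply, smul_eq_mul, Polynomial.map_mul, Polynomial.map_X]
    rw [mul_smul_comm]

variable {N : Type v} [AddCommGroup N] [Module A N] {E : Module.End A N}

/-- **K5a.** `IsFGProj` is stable under base change. -/
theorem isFGProj_baseChange (h : IsFGProj E) : IsFGProj (E.baseChange A') := by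
  obtain ⟨n, ι, π, hπι, hι, hπ⟩ := h
  have hιE : ι ∘ₗ E = mulXVec A n ∘ₗ ι := LinearMap.ext fun v => hι v
  have hπE : π ∘ₗ mulXVec A n = E ∘ₗ π := LinearMap.ext fun w => hπ w
  refine ⟨n, (polyVecEquiv A' n).toLinearMap ∘ₗ ι.baseChange A',
    π.baseChange A' ∘ₗ (polyVecEquiv A' n).symm.toLinearMap, ?_, ?_, ?_⟩
  · apply LinearMap.ext
    intro v
    change (π.baseChange A') ((polyVecEquiv A' n).symm ((polyVecEquiv A' n)
      (ι.baseChange A' v))) = v
    rw [LinearEquiv.symm_apply_apply, ← LinearMap.comp_apply, ← LinearMap.baseChange_comp, hπι,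
      LinearMap.baseChange_id, LinearMap.id_apply]
  · intro v
    change (polyVecEquiv A' n) (ι.baseChange A' (E.baseChange A' v)) =
      (X : A'[X]) • (polyVecEquiv A' n) (ι.baseChange A' v)
    rw [← LinearMap.comp_apply (ι.baseChange A'), ← LinearMap.baseChange_comp, hιE,
      LinearMap.baseChange_comp, LinearMap.comp_apply, polyVecEquiv_baseChange_mulXVec]
  · intro w
    obtain ⟨z, rfl⟩ := (polyVecEquiv (A := A) A' n).surjective w
    change (π.baseChange A') ((polyVecEquiv A' n).symm ((X : A'[X]) • (polyVecEquiv A' n) z)) =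
      (E.baseChange A') ((π.baseChange A') ((polyVecEquiv A' n).symm ((polyVecEquiv A' n) z)))
    rw [← polyVecEquiv_baseChange_mulXVec, LinearEquiv.symm_apply_apply,
      LinearEquiv.symm_apply_apply, ← LinearMap.comp_apply (π.baseChange A'),
      ← LinearMap.baseChange_comp, hπE, LinearMap.baseChange_comp, LinearMap.comp_apply]

end K5a

variable {N0 N1 N01 : Type v}
  [AddCommGroup N0] [AddCommGroup N1] [AddCommGroup N01]
  [Module A N0] [Module A N1] [Module A N01]

/-- Common denominators: finitely many elements of `N01` are simultaneously of the form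
`T^{-k} r0 n`. -/
theorem exists_pow_eq_r0 (D : CechOps A N0 N1 N01) {ι : Type*} [Fintype ι] (x : ι → N01) :
    ∃ (k : ℕ) (n : ι → N0), ∀ i, (D.T ^ k) (x i) = D.r0 (n i) := by
  classical
  choose k n h using fun i => D.loc0 (x i)
  refine ⟨∑ i, k i, fun i => (D.X0 ^ (∑ j, k j - k i)) (n i), fun i => ?_⟩
  have hle : k i ≤ ∑ j, k j := Finset.single_le_sum (f := k) (fun _ _ => Nat.zero_le _)
    (Finset.mem_univ i)
  rw [D.r0_X0_pow, ← h i, ← Module.End.mul_apply, ← pow_add, Nat.sub_add_cancel hle]

/-- `N01` is flat over `A` (it is the localization of the projective module `N0`). -/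
theorem flat_N01 (D : CechOps A N0 N1 N01) (h0 : IsFGProj D.X0)
    (hr0 : Function.Injective D.r0) : Module.Flat A N01 := by
  have hproj : Module.Projective A N0 := k5_projective_of_isFGProj h0
  apply Module.Flat.of_forall_isTrivialRelation
  intro l f x hfx
  obtain ⟨k, n, hn⟩ := exists_pow_eq_r0 D x
  have h1 : ∑ i, f i • n i = 0 := by
    apply hr0
    rw [map_sum, map_zero]
    have : ∀ i, D.r0 (f i • n i) = (D.T ^ k) (f i • x i) := by
      intro i
      rw [map_smul, map_smul, hn i]
    rw [Finset.sum_congr rfl (fun i _ => this i), ← map_sum, hfx, map_zero]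
  obtain ⟨κ, a, u, hu, ha⟩ := Module.Flat.isTrivialRelation_of_sum_smul_eq_zero h1
  refine ⟨κ, a, fun j => (D.Tinv ^ k) (D.r0 (u j)), fun i => ?_, ha⟩
  have h2 : x i = (D.Tinv ^ k) (D.r0 (n i)) := by
    rw [← hn i, D.Tinv_pow_T_pow_apply]
  rw [h2, hu i, map_sum, map_sum]
  refine Finset.sum_congr rfl fun j _ => ?_
  rw [map_smul, map_smul]

section K5
variable (A' : Type w) [CommRing A'] [Algebra A A']

/-- **K5b.** Injectivity of the restriction map is stable under base change. -/
theorem r0_baseChange_injective (D : CechOps A N0 N1 N01) (h0 : IsFGProj D.X0)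
    (hr0 : Function.Injective D.r0) : Function.Injective (D.r0.baseChange A') := by
  classical
  have hflat : Module.Flat A N01 := flat_N01 D h0 hr0
  have hX : Function.Injective (D.X0.baseChange A') :=
    k5_injective_of_isFGProj (isFGProj_baseChange A' h0)
  have hXpow : ∀ k : ℕ, Function.Injective ((D.X0 ^ k).baseChange A') := by
    intro k
    rw [LinearMap.baseChange_pow]
    induction k with
    | zero =>
      rw [pow_zero]
      exact Function.injective_id
    | succ k ih =>
      rw [pow_succ]
      exact ih.comp hX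
  rw [injective_iff_map_eq_zero]
  intro z hz
  obtain ⟨S, rfl⟩ := TensorProduct.exists_finset z
  rw [← Finset.sum_coe_sort] at hz ⊢
  simp only [map_sum, LinearMap.baseChange_tmul] at hz
  have hv := TensorProduct.vanishesTrivially_of_sum_tmul_eq_zero_of_rTensor_injective A
    (m := fun i : S => (i : A' × N0).1) (n := fun i : S => D.r0 (i : A' × N0).2)
    (Module.Flat.rTensor_preserves_injective_linearMap _ (Submodule.subtype_injective _)) hz
  obtain ⟨κ, c, y, hy, hc⟩ := hv
  obtain ⟨k, u, hu⟩ := exists_pow_eq_r0 D y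
  have h3 : ∀ i : S, (D.X0 ^ k) (i : A' × N0).2 = ∑ j, c i j • u j := by
    intro i
    apply hr0
    have hyi : D.r0 (i : A' × N0).2 = ∑ j, c i j • y j := hy i
    rw [D.r0_X0_pow, hyi, map_sum, map_sum]
    refine Finset.sum_congr rfl fun j _ => ?_
    rw [map_smul, map_smul, hu j]
  apply hXpow k
  rw [map_zero, map_sum]
  simp only [LinearMap.baseChange_tmul]
  exact TensorProduct.sum_tmul_eq_zero_of_vanishesTrivially A ⟨κ, c, u, h3, hc⟩

/-- **K5c.** The twisted differential of the base change is the base change of the twisted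
differential (up to the canonical iso `A' ⊗ (N0 × N1) ≃ (A' ⊗ N0) × (A' ⊗ N1)`). -/
theorem baseChange_d (D : CechOps A N0 N1 N01) (m : ℕ) :
    (D.baseChange A').d m ∘ₗ
        ((TensorProduct.prodRight A A' A' N0 N1).toLinearMap) = (D.d m).baseChange A' := by
  apply TensorProduct.AlgebraTensorModule.curry_injective
  ext p
  all_goals
    simp [CechOps.baseChange, ← LinearMap.baseChange_pow, TensorProduct.tmul_neg]

/-- **K5d.** If `d m` is surjective, `H⁰` commutes with base change:
`A' ⊗ ker (d m) → ker (A' ⊗ d m)` is bijective. -/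
theorem H0_baseChange_bijective (D : CechOps A N0 N1 N01)
    (h0 : IsFGProj D.X0) (hr0 : Function.Injective D.r0) (m : ℕ)
    (hsurj : Function.Surjective (D.d m)) :
    Function.Injective ((D.H0 m).subtype.baseChange A') ∧
      LinearMap.range ((D.H0 m).subtype.baseChange A') =
        LinearMap.ker ((D.d m).baseChange A') := by
  have hflat : Module.Flat A N01 := flat_N01 D h0 hr0
  constructor
  · rw [LinearMap.baseChange_eq_ltensor]
    exact LinearMap.lTensor_injective_of_exact_of_flat (D.d m) hsurj (D.H0 m).subtype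
      (Submodule.subtype_injective _) (LinearMap.exact_subtype_ker_map _) A'
  · have hex := lTensor_exact A' (LinearMap.exact_subtype_ker_map (D.d m)) hsurj
    ext z
    rw [LinearMap.mem_range, LinearMap.mem_ker]
    simp only [LinearMap.baseChange_eq_ltensor]
    exact (hex z).symm

end K5

end Fermat.Agent.S25.H670
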