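/-
S25, block DEGREE, leaf D8 (helper670): families.

EXACT statements of `H10/DegreeSkel.lean`:
* `cech_surjective_of_fibres` (D8-a): vanishing of `Ȟ¹` can be tested on the fibres;
* `H0_finite_projective`      (D8-b): `Ȟ¹ = 0` ⇒ `Ȟ⁰` finitely generated projective;
* `cech_surjective_of_isBC`   (D8-c): `Ȟ¹ = 0` is stable under base change;
* `mapH0_isBaseChange`        (D8-c'): `Ȟ¹ = 0` ⇒ `Ȟ⁰` commutes with every base change.
-/
import Fermat.Agent.S25.H10.DegreeDefs
import Fermat.Agent.S25.H250.AdapterProj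
import Fermat.Agent.S25.H910.FiniteModel
import Fermat.Agent.S25.H310.DegreeInvariance
import Fermat.Agent.S25.H190.D1
import Fermat.Agent.S25.H971.GlueBC
import Fermat.Agent.S25.H670.CechBaseChange

set_option autoImplicit false
set_option linter.unusedSectionVars false
set_option linter.unusedVariables false

universe u

open scoped TensorProduct

namespace Fermat.Agent.S25.H670

open Fermat.Agent.S25 Fermat.Agent.S25.H10

noncomputable section

/-- Nakayama: a finite module `M` with `M = 𝔪 M` for every maximal ideal `𝔪` is zero. -/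
theorem subsingleton_of_forall_maximal_smul_top {A : Type*} [CommRing A] (M : Type*)
    [AddCommGroup M] [Module A M] [Module.Finite A M]
    (h : ∀ m : Ideal A, m.IsMaximal → m • (⊤ : Submodule A M) = ⊤) : Subsingleton M := by
  by_contra hM
  rw [not_subsingleton_iff_nontrivial] at hM
  have hann : Module.annihilator A M ≠ ⊤ := by
    intro htop
    obtain ⟨x, hx⟩ := exists_ne (0 : M)
    have h1 : (1 : A) ∈ Module.annihilator A M := by rw [htop]; exact Submodule.mem_top
    rw [Module.mem_annihilator] at h1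
    exact hx (by simpa using h1 x)
  obtain ⟨m, hm, hle⟩ := Ideal.exists_le_maximal _ hann
  obtain ⟨r, hr, hr0⟩ := Submodule.exists_sub_one_mem_and_smul_eq_zero_of_fg_of_le_smul m
    (⊤ : Submodule A M) Module.Finite.fg_top (h m hm).ge
  have hrann : r ∈ Module.annihilator A M := by
    rw [Module.mem_annihilator]
    exact fun x => hr0 x Submodule.mem_top
  have h1 : (1 : A) ∈ m := by
    have := m.sub_mem (hle hrann) hr
    simpa using this
  exact hm.ne_top ((Ideal.eq_top_iff_one m).2 h1)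

variable {k : Type u} [Field k] {B₀ B₁ B₀₁ : Type u} [CommRing B₀] [CommRing B₁] [CommRing B₀₁]
  [Algebra k B₀] [Algebra k B₁] [Algebra k B₀₁] [Algebra B₀ B₀₁] [Algebra B₁ B₀₁]
  [IsScalarTower k B₀ B₀₁] [IsScalarTower k B₁ B₀₁]
  {x : B₀} {y : B₁} {e : B₁ →ₐ[k] k}

/-- D8-b. If `Ȟ¹ = 0` then `Ȟ⁰` is finitely generated projective (K1). -/
theorem H0_finite_projective (hC : IsCurveChart k B₀ B₁ B₀₁ x y e) {A : Type u}
    [CommRing A] [Algebra k A] (G : CurveGD k B₀ B₁ B₀₁ A) (h : Function.Surjective G.cech) :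
    Module.Finite A G.H0 ∧ Module.Projective A G.H0 := by
  have hd : (H250.chartCechOps hC G).d 0 = G.cech := H250.chartCechOps_d_zero hC G
  have hs : Function.Surjective ((H250.chartCechOps hC G).d 0) := by rw [hd]; exact h
  obtain ⟨-, hfin, hproj⟩ := H910.H0_finite_projective_of_surjective (H250.chartCechOps hC G)
    (H250.isFGProj_X0 hC G) (H250.isFGProj_Y1 hC G) (H250.r0_injective hC G)
    (H250.r1_injective hC G) 0 hs
  have hfin' : Module.Finite A (LinearMap.ker ((H250.chartCechOps hC G).d 0)) := hfin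
  have hproj' : Module.Projective A (LinearMap.ker ((H250.chartCechOps hC G).d 0)) := hproj
  rw [hd] at hfin' hproj'
  exact ⟨hfin', hproj'⟩

/-- D8-c. If `Ȟ¹ = 0` then `Ȟ¹` of every base change vanishes. -/
theorem cech_surjective_of_isBC (hC : IsCurveChart k B₀ B₁ B₀₁ x y e) {A A' : Type u}
    [CommRing A] [Algebra k A] [CommRing A'] [Algebra k A'] (φ : A →ₐ[k] A')
    {G : CurveGD k B₀ B₁ B₀₁ A} {G' : CurveGD k B₀ B₁ B₀₁ A'} (h : CurveGD.IsBC φ G G')
    (hs : Function.Surjective G.cech) : Function.Surjective G'.cech := by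
  letI : Algebra A A' := φ.toRingHom.toAlgebra
  haveI : IsScalarTower k A A' := IsScalarTower.of_algebraMap_eq' φ.comp_algebraMap.symm
  have hφ : IsScalarTower.toAlgHom k A A' = φ := AlgHom.ext fun _ => rfl
  rw [← hφ] at h
  obtain ⟨bm⟩ := h
  exact H310.BCMaps.cech_surjective bm hs

/-- D8-a. Vanishing of `Ȟ¹` can be tested on the fibres (E1 + Nakayama + right exactness);
in fact on the closed fibres `A → A ⧸ 𝔪`. -/
theorem cech_surjective_of_fibres (hC : IsCurveChart k B₀ B₁ B₀₁ x y e) {A : Type u}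
    [CommRing A] [Algebra k A] (G : CurveGD k B₀ B₁ B₀₁ A)
    (h : ∀ (K : Type u) [Field K] [Algebra k K] (φ : A →ₐ[k] K)
      (G' : CurveGD k B₀ B₁ B₀₁ K), CurveGD.IsBC φ G G' → Function.Surjective G'.cech) :
    Function.Surjective G.cech := by
  haveI hfin : Module.Finite A G.H1 := H190.finite_H1 hC G
  have hsub : Subsingleton G.H1 := by
    refine subsingleton_of_forall_maximal_smul_top (A := A) G.H1 (fun m hm => ?_)
    letI : Field (A ⧸ m) := Ideal.Quotient.field m
    obtain ⟨G', hG'⟩ := H971.exists_curveGD_baseChange B₀ B₁ B₀₁ (Ideal.Quotient.mkₐ k m) G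
    have hs' : Function.Surjective G'.cech := h (A ⧸ m) (Ideal.Quotient.mkₐ k m) G' hG'
    have hφ : IsScalarTower.toAlgHom k A (A ⧸ m) = Ideal.Quotient.mkₐ k m :=
      AlgHom.ext fun _ => rfl
    rw [← hφ] at hG'
    obtain ⟨bm⟩ := hG'
    have hsub' : Subsingleton G'.H1 := by
      have : LinearMap.range G'.cech = ⊤ := LinearMap.range_eq_top.2 hs'
      exact Submodule.Quotient.subsingleton_iff.2 this
    have hsub'' : Subsingleton ((A ⧸ m) ⊗[A] G.H1) :=
      (H310.BCMaps.H1Equiv bm).toEquiv.subsingleton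
    have hsub3 : Subsingleton (G.H1 ⧸ (m • (⊤ : Submodule A G.H1))) :=
      (TensorProduct.quotTensorEquivQuotSMul G.H1 m).symm.toEquiv.subsingleton
    exact Submodule.Quotient.subsingleton_iff.1 hsub3
  have : LinearMap.range G.cech = ⊤ := Submodule.Quotient.subsingleton_iff.1 hsub
  exact LinearMap.range_eq_top.1 this

/-- D8-c'. If `Ȟ¹ = 0` then `Ȟ⁰` commutes with every base change (K5). -/
theorem mapH0_isBaseChange (hC : IsCurveChart k B₀ B₁ B₀₁ x y e) {A A' : Type u}
    [CommRing A] [Algebra k A] [CommRing A'] [Algebra k A'] (φ : A →ₐ[k] A')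
    {G : CurveGD k B₀ B₁ B₀₁ A} {G' : CurveGD k B₀ B₁ B₀₁ A'}
    (bc : GlueDatum.BaseChangeMaps (tensorMapLeft k φ B₀) (tensorMapLeft k φ B₁)
      (tensorMapLeft k φ B₀₁) G G') (hs : Function.Surjective G.cech) :
    IsSemilinearBaseChange φ.toRingHom (mapH0 φ bc) := by
  letI : Algebra A A' := φ.toRingHom.toAlgebra
  haveI : IsScalarTower k A A' := IsScalarTower.of_algebraMap_eq' φ.comp_algebraMap.symm
  have hd : (H250.chartCechOps hC G).d 0 = G.cech := H250.chartCechOps_d_zero hC G
  have hsD : Function.Surjective ((H250.chartCechOps hC G).d 0) := by rw [hd]; exact hs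
  have hK5 : Function.Injective
        ((LinearMap.ker ((H250.chartCechOps hC G).d 0)).subtype.baseChange A') ∧
      LinearMap.range ((LinearMap.ker ((H250.chartCechOps hC G).d 0)).subtype.baseChange A') =
        LinearMap.ker (((H250.chartCechOps hC G).d 0).baseChange A') :=
    H0_baseChange_bijective A' (H250.chartCechOps hC G) (H250.isFGProj_X0 hC G)
      (H250.r0_injective hC G) 0 hsD
  rw [hd] at hK5
  obtain ⟨hinj, hrange⟩ := hK5
  let bm : H310.BCMaps G G' := bc
  let e : A' ⊗[A] G.H0 ≃ₗ[A'] G'.H0 :=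
    (LinearEquiv.ofInjective _ hinj) ≪≫ₗ (LinearEquiv.ofEq _ _ hrange) ≪≫ₗ
      (H310.BCMaps.kerEquiv bm)
  letI : Module A G'.H0 := Module.compHom G'.H0 φ.toRingHom
  haveI : IsScalarTower A A' G'.H0 := ⟨fun r r' n => by
    change (φ.toRingHom r * r') • n = φ.toRingHom r • (r' • n); rw [mul_smul]⟩
  refine IsBaseChange.of_equiv e (fun s => ?_)
  apply Subtype.ext
  show (H310.BCMaps.equivProd bm) ((1 : A') ⊗ₜ[A] (s : G.N₀ × G.N₁)) = _
  rw [H310.BCMaps.equivProd_tmul, one_smul, one_smul]
  rfl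

end

end Fermat.Agent.S25.H670
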